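import Mathlib
import Fermat.Agent.S27.Zeta.Defs
import Fermat.Agent.S27.Zeta.Fin
import Fermat.Agent.S27.Zeta.ClassCount

set_option autoImplicit false

/-!
# S27, part D, seat Z4 (RAT), part 1: classes, fibres of `cls`, finiteness of `J₁`

* `z4D S x d` : a divisor of degree `d` whose `cls` is `x` (a representative of `x` plus `d P₀`);
* `z4Fib S d x` : the invariant effective divisors linearly equivalent to `z4D S x d`
  (`= effInv d ∩ cls⁻¹ x`, `mem_z4Fib_iff`);
* `z4G q n = 1 + q + ⋯ + q^(n-1)`;  `card_z4Fib` : `#z4Fib S d x = z4G q (ℓ (z4D S x d))`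
  for `x ∈ J₁` (seat Z3b);
* `finite_fixed_one'` : `J₁` is finite.
-/

noncomputable section

open AlgebraicCurve

namespace Fermat.Agent.S27

open Fermat.Agent.RR

variable {k F : Type*} [Field k] [Field F] [Algebra k F]

/-- principal divisors have degree `0` -/
theorem z4_degree_of_principal (hRR : IsRRField k F) {D : Divisor k F}
    (hD : D ∈ Divisor.principal (K := k) (F := F)) : Divisor.degree D = 0 := by
  obtain ⟨f, hf, hD⟩ := hD
  have : D = divOf hRR f := by
    ext v
    rw [hD v, divOf_apply]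
  rw [this, degree_divOf]

/-- `div f` is principal -/
theorem z4_divOf_mem_principal (hRR : IsRRField k F) {f : F} (hf : f ≠ 0) :
    divOf hRR f ∈ Divisor.principal (K := k) (F := F) :=
  ⟨f, hf, fun v => divOf_apply hRR f v⟩

/-- a principal divisor is a `div f` -/
theorem z4_exists_divOf (hRR : IsRRField k F) {D : Divisor k F}
    (hD : D ∈ Divisor.principal (K := k) (F := F)) : ∃ f : F, f ≠ 0 ∧ D = divOf hRR f := by
  obtain ⟨f, hf, hD⟩ := hD
  refine ⟨f, hf, ?_⟩
  ext v
  rw [hD v, divOf_apply]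

/-- equality of classes -/
theorem z4_mk_eq_mk_iff (D E : Divisor.degZero (K := k) (F := F)) :
    Pic0.mk D = Pic0.mk E ↔
      (D : Divisor k F) - (E : Divisor k F) ∈ Divisor.principal (K := k) (F := F) := by
  unfold Pic0.mk
  rw [QuotientAddGroup.eq, AddSubgroup.mem_addSubgroupOf]
  have h1 : ((-D + E : Divisor.degZero (K := k) (F := F)) : Divisor k F)
      = -((D : Divisor k F) - (E : Divisor k F)) := by
    rw [AddSubgroup.coe_add, AddSubgroup.coe_neg]
    abel
  rw [h1, neg_mem_iff]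

/-- `ℓ` only depends on the class -/
theorem z4_ell_congr (hRR : IsRRField k F) {D E : Divisor k F}
    (h : D - E ∈ Divisor.principal (K := k) (F := F)) : ell D = ell E := by
  obtain ⟨f, hf, hD⟩ := z4_exists_divOf hRR h
  have : D = E + divOf hRR f := by rw [← hD]; abel
  rw [this, ell_add_divOf hRR E hf]

open Classical in
/-- `ℓ` of a divisor of degree `0` -/
theorem z4_ell_degZero (hRR : IsRRField k F) {D : Divisor k F} (hD : Divisor.degree D = 0) :
    ell D = if D ∈ Divisor.principal (K := k) (F := F) then 1 else 0 := by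
  split_ifs with h
  · have h' : D - 0 ∈ Divisor.principal (K := k) (F := F) := by rwa [sub_zero]
    rw [z4_ell_congr hRR h', ell_zero hRR]
  · by_contra hne
    apply h
    have hbot : riemannRochSpace D ≠ ⊥ := by
      intro hbot
      apply hne
      rw [ell_def, hbot, finrank_bot]
    obtain ⟨f, hfD, hf0⟩ := Submodule.exists_mem_ne_zero_of_ne_bot hbot
    have := divOf_eq_neg_of_mem_of_degree_eq_zero hRR hf0 hfD hD
    have h2 : D = -divOf hRR f := by rw [this, neg_neg]
    rw [h2]
    exact neg_mem (z4_divOf_mem_principal hRR hf0)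

/-- `ℓ` is invariant under semilinear automorphisms -/
theorem z4_ell_smul (g : SemilinearAut k F) (D : Divisor k F) : ell (g • D) = ell D := by
  have hmem : ∀ (g : SemilinearAut k F) (D : Divisor k F) (f : F),
      f ∈ riemannRochSpace D → g • f ∈ riemannRochSpace (g • D) := by
    intro g D f hf
    rw [mem_riemannRochSpace_iff] at hf ⊢
    intro w
    rcases hf (g⁻¹ • w) with h0 | h1
    · left
      rw [h0, smul_zero]
    · right
      rw [SemilinearAut.divisor_smul_apply]
      have := SemilinearAut.ord_smul g (g⁻¹ • w) f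
      rw [smul_inv_smul] at this
      rw [this]
      exact h1
  let e : riemannRochSpace D ≃+ riemannRochSpace (g • D) :=
    { toFun := fun f => ⟨g • (f : F), hmem g D f f.2⟩
      invFun := fun f => ⟨g⁻¹ • (f : F), by
        have := hmem g⁻¹ (g • D) f f.2
        rwa [inv_smul_smul] at this⟩
      left_inv := fun f => Subtype.ext (inv_smul_smul g (f : F))
      right_inv := fun f => Subtype.ext (smul_inv_smul g (f : F))
      map_add' := fun f f' => Subtype.ext (smul_add g (f : F) (f' : F)) }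
  have hrank : Module.rank k (riemannRochSpace D) = Module.rank k (riemannRochSpace (g • D)) := by
    refine rank_eq_of_equiv_equiv (SemilinearAut.baseAut g) e
      (SemilinearAut.baseAut g).bijective ?_
    intro c f
    apply Subtype.ext
    show g • ((c • f : riemannRochSpace D) : F) = SemilinearAut.baseAut g c • (g • (f : F))
    rw [Submodule.coe_smul, Algebra.smul_def, Algebra.smul_def, smul_mul',
      SemilinearAut.smul_algebraMap]
  rw [ell_def, ell_def, Module.finrank, Module.finrank, hrank]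

/-! ### `cls` and representatives -/

theorem z4_degree_P₀ (hRR : IsRRField k F) (S : FrobStr k F) (n : ℤ) :
    Divisor.degree (n • Finsupp.single S.P₀ (1 : ℤ)) = n := by
  rw [map_zsmul, degree_single_one hRR, smul_eq_mul, mul_one]

theorem z4_degree_sub (hRR : IsRRField k F) (S : FrobStr k F) (D : Divisor k F) :
    Divisor.degree (D - Divisor.degree D • Finsupp.single S.P₀ (1 : ℤ)) = 0 := by
  rw [map_sub, z4_degree_P₀ hRR, sub_self]

theorem z4_cls_eq (hRR : IsRRField k F) (S : FrobStr k F) (D : Divisor k F) :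
    S.cls D = Pic0.mk ⟨D - Divisor.degree D • Finsupp.single S.P₀ (1 : ℤ),
      z4_degree_sub hRR S D⟩ := by
  unfold FrobStr.cls
  rw [dif_pos (z4_degree_sub hRR S D)]

/-- a representative of a class -/
def z4Rep (x : Pic0 k F) : Divisor.degZero (K := k) (F := F) := (Pic0.mk_surjective x).choose

theorem z4Rep_spec (x : Pic0 k F) : Pic0.mk (z4Rep x) = x := (Pic0.mk_surjective x).choose_spec

theorem z4Rep_degree (x : Pic0 k F) : Divisor.degree (z4Rep x : Divisor k F) = 0 :=
  (z4Rep x).2

/-- a divisor of degree `d` with class `x` -/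
def z4D (S : FrobStr k F) (x : Pic0 k F) (d : ℕ) : Divisor k F :=
  (z4Rep x : Divisor k F) + (d : ℤ) • Finsupp.single S.P₀ (1 : ℤ)

theorem z4D_degree (hRR : IsRRField k F) (S : FrobStr k F) (x : Pic0 k F) (d : ℕ) :
    Divisor.degree (z4D S x d) = d := by
  unfold z4D
  rw [map_add, z4Rep_degree, z4_degree_P₀ hRR, zero_add]

/-- the fibre of `cls` over `x` in degree `d` -/
theorem z4_cls_eq_iff (hRR : IsRRField k F) (S : FrobStr k F) (x : Pic0 k F) (d : ℕ)
    {E : Divisor k F} (hE : Divisor.degree E = d) :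
    S.cls E = x ↔ E - z4D S x d ∈ Divisor.principal (K := k) (F := F) := by
  rw [z4_cls_eq hRR S E]
  conv_lhs => rw [← z4Rep_spec x]
  rw [z4_mk_eq_mk_iff]
  have : (E - Divisor.degree E • Finsupp.single S.P₀ (1 : ℤ)) - (z4Rep x : Divisor k F)
      = E - z4D S x d := by
    rw [hE]
    unfold z4D
    abel
  show (E - Divisor.degree E • Finsupp.single S.P₀ (1 : ℤ)) - (z4Rep x : Divisor k F) ∈ _ ↔ _
  rw [this]

theorem z4_cls_z4D (hRR : IsRRField k F) (S : FrobStr k F) (x : Pic0 k F) (d : ℕ) :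
    S.cls (z4D S x d) = x := by
  rw [z4_cls_eq_iff hRR S x d (z4D_degree hRR S x d), sub_self]
  exact zero_mem _

/-- `σ • cls D = cls (σ • D)` -/
theorem z4_smul_cls (hRR : IsRRField k F) (S : FrobStr k F) (D : Divisor k F) :
    S.σ • S.cls D = S.cls (S.σ • D) := by
  rw [z4_cls_eq hRR S D, z4_cls_eq hRR S (S.σ • D), SemilinearAut.pic0_smul_mk]
  refine congrArg Pic0.mk (Subtype.ext ?_)
  rw [SemilinearAut.coe_degZeroSMulHom]
  show S.σ • (D - Divisor.degree D • Finsupp.single S.P₀ (1 : ℤ))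
    = S.σ • D - Divisor.degree (S.σ • D) • Finsupp.single S.P₀ (1 : ℤ)
  rw [smul_sub, SemilinearAut.degree_smul, smul_comm, SemilinearAut.smul_single, S.fixed]

theorem z4_mem_fixed_iff (S : FrobStr k F) (x : Pic0 k F) :
    x ∈ fixedPow S.sigmaEnd 1 ↔ S.σ • x = x := by
  rw [mem_fixedPow, pow_one, FrobStr.sigmaEnd_apply]

/-- the class of an invariant divisor is invariant -/
theorem z4_cls_mem_fixed (hRR : IsRRField k F) (S : FrobStr k F) {D : Divisor k F}
    (hD : S.σ • D = D) : S.cls D ∈ fixedPow S.sigmaEnd 1 := by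
  rw [z4_mem_fixed_iff, z4_smul_cls hRR, hD]

/-- for an invariant class, `σ • D - D` is principal -/
theorem z4_smul_sub_mem (hRR : IsRRField k F) (S : FrobStr k F) {D : Divisor k F}
    (hD : S.cls D ∈ fixedPow S.sigmaEnd 1) :
    S.σ • D - D ∈ Divisor.principal (K := k) (F := F) := by
  rw [z4_mem_fixed_iff, z4_smul_cls hRR, z4_cls_eq hRR, z4_cls_eq hRR, z4_mk_eq_mk_iff] at hD
  have : (S.σ • D - Divisor.degree (S.σ • D) • Finsupp.single S.P₀ (1 : ℤ))
      - (D - Divisor.degree D • Finsupp.single S.P₀ (1 : ℤ)) = S.σ • D - D := by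
    rw [SemilinearAut.degree_smul]
    abel
  rw [← this]
  exact hD

/-! ### the fibres -/

/-- the invariant effective divisors linearly equivalent to `z4D S x d` -/
def z4Fib (S : FrobStr k F) (d : ℕ) (x : Pic0 k F) : Set (Divisor k F) :=
  {E | 0 ≤ E ∧ E - z4D S x d ∈ Divisor.principal (K := k) (F := F) ∧ S.σ • E = E}

theorem mem_z4Fib_iff (hRR : IsRRField k F) (S : FrobStr k F) (d : ℕ) (x : Pic0 k F)
    (E : Divisor k F) : E ∈ z4Fib S d x ↔ E ∈ S.effInv d ∧ S.cls E = x := by
  constructor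
  · rintro ⟨h0, hp, hσ⟩
    have hdeg : Divisor.degree E = d := by
      have := z4_degree_of_principal hRR hp
      rw [map_sub, z4D_degree hRR] at this
      linarith
    exact ⟨⟨h0, hdeg, hσ⟩, (z4_cls_eq_iff hRR S x d hdeg).mpr hp⟩
  · rintro ⟨⟨h0, hdeg, hσ⟩, hx⟩
    exact ⟨h0, (z4_cls_eq_iff hRR S x d hdeg).mp hx, hσ⟩

theorem z4Fib_subset (hRR : IsRRField k F) (S : FrobStr k F) (d : ℕ) (x : Pic0 k F) :
    z4Fib S d x ⊆ S.effInv d := fun E hE => ((mem_z4Fib_iff hRR S d x E).mp hE).1

theorem z4Fib_finite (hRR : IsRRField k F) (S : FrobStr k F) (d : ℕ) (x : Pic0 k F) :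
    (z4Fib S d x).Finite := (effInv_finite hRR S d).subset (z4Fib_subset hRR S d x)

/-- `1 + q + ⋯ + q^(n-1)` -/
def z4G (q : ℕ) (n : ℕ) : ℤ := ∑ i ∈ Finset.range n, (q : ℤ) ^ i

theorem z4G_zero (q : ℕ) : z4G q 0 = 0 := by
  unfold z4G
  rw [Finset.sum_range_zero]

theorem z4G_succ (q n : ℕ) : z4G q (n + 1) = q * z4G q n + 1 := by
  unfold z4G
  rw [geom_sum_succ]

theorem z4G_succ' (q n : ℕ) : z4G q (n + 1) = z4G q n + (q : ℤ) ^ n := by
  unfold z4G
  rw [Finset.sum_range_succ]

theorem z4G_mul (q n : ℕ) : z4G q n * ((q : ℤ) - 1) = (q : ℤ) ^ n - 1 := by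
  unfold z4G
  rw [geom_sum_mul]

theorem z4G_pos (q n : ℕ) (hn : 0 < n) : 0 < z4G q n := by
  obtain ⟨m, rfl⟩ := Nat.exists_eq_succ_of_ne_zero hn.ne'
  rw [z4G_succ']
  have h1 : 0 ≤ z4G q m := Finset.sum_nonneg fun i _ => by positivity
  have h2 : (0 : ℤ) ≤ (q : ℤ) ^ m := by positivity
  by_cases hm : m = 0
  · subst hm
    simp [z4G_zero]
  · have hq : 0 < z4G q m ∨ 0 < (q : ℤ) ^ m := by
      left
      obtain ⟨j, rfl⟩ := Nat.exists_eq_succ_of_ne_zero hm
      rw [z4G_succ]
      have : 0 ≤ (q : ℤ) * z4G q j :=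
        mul_nonneg (by positivity) (Finset.sum_nonneg fun i _ => by positivity)
      linarith
    rcases hq with h | h <;> linarith

/-- **the number of invariant effective divisors in an invariant class** (seat Z3b) -/
theorem card_z4Fib (hRR : IsRRField k F) (S : FrobStr k F) [IsAlgClosed k] (d : ℕ)
    {x : Pic0 k F} (hx : x ∈ fixedPow S.sigmaEnd 1) :
    (Nat.card (z4Fib S d x) : ℤ) = z4G S.q (ell (z4D S x d)) := by
  have hD₀ : S.σ • z4D S x d - z4D S x d ∈ Divisor.principal (K := k) (F := F) := by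
    apply z4_smul_sub_mem hRR
    rw [z4_cls_z4D hRR]
    exact hx
  have h := card_effInv_class hRR S (z4D S x d) hD₀
  have hq := S.one_lt_q
  have h1 : ((Nat.card (z4Fib S d x) * (S.q - 1) : ℕ) : ℤ)
      = ((S.q ^ ell (z4D S x d) - 1 : ℕ) : ℤ) := by
    exact_mod_cast h
  rw [Nat.cast_mul, Nat.cast_sub hq.le, Nat.cast_sub (Nat.one_le_pow _ _ (by omega)),
    Nat.cast_pow, Nat.cast_one, ← z4G_mul] at h1
  have hne : ((S.q : ℤ) - 1) ≠ 0 := by
    have : (1 : ℤ) < S.q := by exact_mod_cast hq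
    omega
  exact mul_right_cancel₀ hne h1

end Fermat.Agent.S27
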