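import Mathlib
import Fermat.Agent.S27.Zeta.Rat.Classes

set_option autoImplicit false

/-!
# S27, part D, seat Z4 (RAT), part 2: finiteness of `J₁` and the class sums

* `finite_fixed_one'` : `J₁` is finite;
* `z4J S hRR` : `J₁` as a `Finset`, `z4A S hRR d` : `effInv d` as a `Finset`;
* `z4_sum_cls` : `Σ_{E ∈ effInv d} φ (cls E) = Σ_{x ∈ J₁} #(fibre) • φ x`;
* `z4_aCoef_eq` : `a_d = Σ_{x ∈ J₁} z4G q (ℓ (z4D S x d))`;
* `z4_ell_stable` : `ℓ (z4D S x d) = d + 1 - g` for `2 g ≤ d + 1`;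
* `z4_aCoef_stable` : `a_d = h z4G q (d + 1 - g)` for `2 g ≤ d + 1`.
-/

noncomputable section

open AlgebraicCurve

namespace Fermat.Agent.S27

open Fermat.Agent.RR

variable {k F : Type*} [Field k] [Field F] [Algebra k F]

/-- Riemann's inequality for `z4D` -/
theorem z4_le_ell (hRR : IsRRField k F) (S : FrobStr k F) (x : Pic0 k F) (d : ℕ) :
    (d : ℤ) + 1 - genusFF k F ≤ ell (z4D S x d) := by
  obtain ⟨W, hW⟩ := riemann_roch hRR
  have := hW (z4D S x d)
  rw [z4D_degree hRR] at this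
  have h0 : (0 : ℤ) ≤ ell (W - z4D S x d) := by positivity
  linarith

/-- the stable range -/
theorem z4_ell_stable (hRR : IsRRField k F) (S : FrobStr k F) (x : Pic0 k F) (d : ℕ)
    (hd : 2 * genusFF k F ≤ d + 1) : ell (z4D S x d) = d + 1 - genusFF k F := by
  have h := ell_of_degree_gt hRR (D := z4D S x d) (by
    rw [z4D_degree hRR]
    have : (2 * genusFF k F : ℤ) ≤ (d : ℤ) + 1 := by exact_mod_cast hd
    linarith)
  rw [z4D_degree hRR] at h
  have : (ell (z4D S x d) : ℤ) = ((d + 1 - genusFF k F : ℕ) : ℤ) := by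
    rw [h, Nat.cast_sub (by omega)]
    push_cast
    ring
  exact_mod_cast this

/-- every invariant class of degree `≥ g` contains an invariant effective divisor -/
theorem z4Fib_nonempty (hRR : IsRRField k F) (S : FrobStr k F) [IsAlgClosed k] (d : ℕ)
    (hd : genusFF k F ≤ d) {x : Pic0 k F} (hx : x ∈ fixedPow S.sigmaEnd 1) :
    (z4Fib S d x).Nonempty := by
  have h1 := card_z4Fib hRR S d hx
  have h2 := z4_le_ell hRR S x d
  have h3 : 0 < ell (z4D S x d) := by
    have : (genusFF k F : ℤ) ≤ d := by exact_mod_cast hd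
    have : (0 : ℤ) < ell (z4D S x d) := by linarith
    exact_mod_cast this
  have h4 := z4G_pos S.q _ h3
  rw [← h1] at h4
  have h5 : Nat.card (z4Fib S d x) ≠ 0 := by
    intro h
    rw [h] at h4
    simp at h4
  obtain ⟨⟨E, hE⟩⟩ := (Nat.card_ne_zero.mp h5).1
  exact ⟨E, hE⟩

/-- **Seat Z4.** `J₁` is finite -/
theorem finite_fixed_one' (hRR : IsRRField k F) (S : FrobStr k F) [IsAlgClosed k] :
    (fixedPow S.sigmaEnd 1 : Set (Pic0 k F)).Finite := by
  refine ((effInv_finite hRR S (genusFF k F)).image S.cls).subset ?_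
  intro x hx
  obtain ⟨E, hE⟩ := z4Fib_nonempty hRR S (genusFF k F) le_rfl hx
  obtain ⟨h1, h2⟩ := (mem_z4Fib_iff hRR S _ x E).mp hE
  exact ⟨E, h1, h2⟩

/-- `J₁` as a `Finset` -/
def z4J (hRR : IsRRField k F) (S : FrobStr k F) [IsAlgClosed k] : Finset (Pic0 k F) :=
  (finite_fixed_one' hRR S).toFinset

theorem mem_z4J (hRR : IsRRField k F) (S : FrobStr k F) [IsAlgClosed k] (x : Pic0 k F) :
    x ∈ z4J hRR S ↔ x ∈ fixedPow S.sigmaEnd 1 := by
  unfold z4J
  rw [Set.Finite.mem_toFinset]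
  rfl

theorem card_z4J (hRR : IsRRField k F) (S : FrobStr k F) [IsAlgClosed k] :
    (z4J hRR S).card = Nat.card (fixedPow S.sigmaEnd 1) := by
  unfold z4J
  rw [← Set.ncard_eq_toFinset_card _ (finite_fixed_one' hRR S)]
  exact (Nat.card_coe_set_eq _).symm

/-- `effInv d` as a `Finset` -/
def z4A (hRR : IsRRField k F) (S : FrobStr k F) (d : ℕ) : Finset (Divisor k F) :=
  (effInv_finite hRR S d).toFinset

theorem mem_z4A (hRR : IsRRField k F) (S : FrobStr k F) (d : ℕ) (E : Divisor k F) :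
    E ∈ z4A hRR S d ↔ E ∈ S.effInv d := by
  unfold z4A
  rw [Set.Finite.mem_toFinset]

theorem card_z4A (hRR : IsRRField k F) (S : FrobStr k F) (d : ℕ) :
    (z4A hRR S d).card = S.aCoef d := by
  unfold z4A FrobStr.aCoef
  rw [← Set.ncard_eq_toFinset_card _ (effInv_finite hRR S d)]
  exact (Nat.card_coe_set_eq _).symm

open Classical in
theorem card_filter_z4A (hRR : IsRRField k F) (S : FrobStr k F) (d : ℕ) (x : Pic0 k F) :
    ((z4A hRR S d).filter fun E => S.cls E = x).card = Nat.card (z4Fib S d x) := by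
  rw [Nat.card_coe_set_eq, ← Set.ncard_coe_finset]
  congr 1
  ext E
  rw [Finset.coe_filter, Set.mem_setOf_eq, mem_z4A, mem_z4Fib_iff hRR]

/-- **class sums** -/
theorem z4_sum_cls (hRR : IsRRField k F) (S : FrobStr k F) [IsAlgClosed k] (d : ℕ)
    {M : Type*} [AddCommMonoid M] (φ : Pic0 k F → M) :
    ∑ E ∈ z4A hRR S d, φ (S.cls E)
      = ∑ x ∈ z4J hRR S, Nat.card (z4Fib S d x) • φ x := by
  classical
  have hmaps : ∀ E ∈ z4A hRR S d, S.cls E ∈ z4J hRR S := by
    intro E hE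
    rw [mem_z4A] at hE
    rw [mem_z4J]
    exact z4_cls_mem_fixed hRR S hE.2.2
  rw [← Finset.sum_fiberwise_of_maps_to hmaps]
  refine Finset.sum_congr rfl fun x _ => ?_
  rw [← card_filter_z4A hRR S d x, ← Finset.sum_const]
  refine Finset.sum_congr rfl fun E hE => ?_
  rw [(Finset.mem_filter.mp hE).2]

/-- `a_d` as a class sum -/
theorem z4_aCoef_eq (hRR : IsRRField k F) (S : FrobStr k F) [IsAlgClosed k] (d : ℕ) :
    (S.aCoef d : ℤ) = ∑ x ∈ z4J hRR S, z4G S.q (ell (z4D S x d)) := by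
  have h := z4_sum_cls hRR S d (M := ℤ) (fun _ => 1)
  rw [Finset.sum_const, card_z4A, nsmul_eq_mul, mul_one] at h
  rw [h]
  refine Finset.sum_congr rfl fun x hx => ?_
  rw [nsmul_eq_mul, mul_one]
  exact card_z4Fib hRR S d ((mem_z4J hRR S x).mp hx)

/-- `a_d` in the stable range -/
theorem z4_aCoef_stable (hRR : IsRRField k F) (S : FrobStr k F) [IsAlgClosed k] (d : ℕ)
    (hd : 2 * genusFF k F ≤ d + 1) :
    (S.aCoef d : ℤ)
      = Nat.card (fixedPow S.sigmaEnd 1) * z4G S.q (d + 1 - genusFF k F) := by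
  rw [z4_aCoef_eq hRR S d, ← card_z4J hRR S, ← nsmul_eq_mul, ← Finset.sum_const]
  refine Finset.sum_congr rfl fun x _ => ?_
  rw [z4_ell_stable hRR S x d hd]

/-- `L`-coefficients as class sums -/
theorem z4_Lcoef_eq (hRR : IsRRField k F) (S : FrobStr k F) [IsAlgClosed k] (d : ℕ)
    (χ : Pic0 k F → ℂ) :
    S.Lcoef χ d = ∑ x ∈ z4J hRR S, (z4G S.q (ell (z4D S x d)) : ℂ) * χ x := by
  unfold FrobStr.Lcoef
  rw [finsum_mem_eq_finite_toFinset_sum _ (effInv_finite hRR S d)]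
  have h := z4_sum_cls hRR S d χ
  unfold z4A at h
  rw [h]
  refine Finset.sum_congr rfl fun x hx => ?_
  rw [nsmul_eq_mul]
  congr 1
  have := card_z4Fib hRR S d ((mem_z4J hRR S x).mp hx)
  exact_mod_cast congrArg (Int.cast : ℤ → ℂ) this

end Fermat.Agent.S27
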