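import Mathlib
import Fermat.Agent.S27.Zeta.Rat.Sums

set_option autoImplicit false

/-!
# S27, part D, seat Z4 (RAT), part 3: the canonical class, `a_0`, `a_{2g-2}`

* `z4_aCoef_zero` : `a_0 = 1`;
* `z4_exists_canonical` : for `g ≥ 1` there is `x_W ∈ J₁` with
  `ℓ (z4D S x (2g-2)) = g` for `x = x_W` and `= g - 1` otherwise;
* `z4_aCoef_canon` : `a_{2g-2} = h z4G q (g-1) + q^(g-1)` for `g ≥ 1`.
-/

noncomputable section

open AlgebraicCurve

namespace Fermat.Agent.S27

open Fermat.Agent.RR

variable {k F : Type*} [Field k] [Field F] [Algebra k F]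

/-- `a_0 = 1` -/
theorem z4_aCoef_zero (hRR : IsRRField k F) (S : FrobStr k F) : S.aCoef 0 = 1 := by
  have h : S.effInv 0 = {0} := by
    ext E
    constructor
    · rintro ⟨h0, hdeg, -⟩
      exact eq_zero_of_nonneg_of_degree_eq_zero hRR h0 (by simpa using hdeg)
    · intro hE
      rw [Set.mem_singleton_iff] at hE
      subst hE
      exact ⟨le_rfl, by simp, smul_zero _⟩
  unfold FrobStr.aCoef
  rw [h, Nat.card_coe_set_eq, Set.ncard_singleton]

/-- equality of `cls` for divisors of the same degree -/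
theorem z4_cls_eq_cls_iff (hRR : IsRRField k F) (S : FrobStr k F) {D E : Divisor k F}
    (h : Divisor.degree D = Divisor.degree E) :
    S.cls D = S.cls E ↔ D - E ∈ Divisor.principal (K := k) (F := F) := by
  rw [z4_cls_eq hRR, z4_cls_eq hRR, z4_mk_eq_mk_iff]
  have : (D - Divisor.degree D • Finsupp.single S.P₀ (1 : ℤ))
      - (E - Divisor.degree E • Finsupp.single S.P₀ (1 : ℤ)) = D - E := by
    rw [h]
    abel
  show (D - Divisor.degree D • Finsupp.single S.P₀ (1 : ℤ))
      - (E - Divisor.degree E • Finsupp.single S.P₀ (1 : ℤ)) ∈ _ ↔ _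
  rw [this]

open Classical in
/-- **the canonical class** is `σ`-invariant and is the only class of degree `2g - 2` with
`ℓ = g` -/
theorem z4_exists_canonical (hRR : IsRRField k F) (S : FrobStr k F)
    (hg : 1 ≤ genusFF k F) :
    ∃ xW ∈ fixedPow S.sigmaEnd 1, ∀ x : Pic0 k F,
      ell (z4D S x (2 * genusFF k F - 2))
        = if x = xW then genusFF k F else genusFF k F - 1 := by
  obtain ⟨W, hW⟩ := riemann_roch hRR
  obtain ⟨hdeg, hell⟩ := canonical_degree hRR hW
  have hdegN : Divisor.degree W = ((2 * genusFF k F - 2 : ℕ) : ℤ) := by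
    rw [hdeg, Nat.cast_sub (by omega)]
    push_cast
    ring
  refine ⟨S.cls W, ?_, fun x => ?_⟩
  · -- invariance
    rw [z4_mem_fixed_iff, z4_smul_cls hRR,
      z4_cls_eq_cls_iff hRR S (SemilinearAut.degree_smul S.σ W)]
    have h1 := hW (S.σ • W)
    rw [z4_ell_smul, SemilinearAut.degree_smul, hell, hdeg] at h1
    have h2 : ell (W - S.σ • W) = 1 := by
      have : (ell (W - S.σ • W) : ℤ) = 1 := by linarith
      exact_mod_cast this
    have h3 : Divisor.degree (W - S.σ • W) = 0 := by
      rw [map_sub, SemilinearAut.degree_smul, sub_self]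
    rw [z4_ell_degZero hRR h3] at h2
    have h4 : W - S.σ • W ∈ Divisor.principal (K := k) (F := F) := by
      by_contra hne
      rw [if_neg hne] at h2
      exact zero_ne_one h2
    have h5 : S.σ • W - W = -(W - S.σ • W) := by abel
    rw [h5]
    exact neg_mem h4
  · have h1 := hW (z4D S x (2 * genusFF k F - 2))
    rw [z4D_degree hRR] at h1
    have h3 : Divisor.degree (W - z4D S x (2 * genusFF k F - 2)) = 0 := by
      rw [map_sub, z4D_degree hRR, hdegN, sub_self]
    have h4 : (W - z4D S x (2 * genusFF k F - 2) ∈ Divisor.principal (K := k) (F := F))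
        ↔ x = S.cls W := by
      rw [← z4_cls_eq_iff hRR S x _ hdegN]
      exact eq_comm
    rw [z4_ell_degZero hRR h3] at h1
    have hc : ((2 * genusFF k F - 2 : ℕ) : ℤ) = 2 * (genusFF k F : ℤ) - 2 := by
      rw [Nat.cast_sub (by omega)]
      push_cast
      ring
    rw [hc] at h1
    by_cases hx : x = S.cls W
    · rw [if_pos hx]
      rw [if_pos (h4.mpr hx)] at h1
      have : (ell (z4D S x (2 * genusFF k F - 2)) : ℤ) = genusFF k F := by
        rw [h1]
        push_cast
        ring
      exact_mod_cast this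
    · rw [if_neg hx]
      rw [if_neg (fun h => hx (h4.mp h))] at h1
      have : (ell (z4D S x (2 * genusFF k F - 2)) : ℤ) = ((genusFF k F - 1 : ℕ) : ℤ) := by
        rw [h1, Nat.cast_sub hg]
        push_cast
        ring
      exact_mod_cast this

/-- `a_{2g-2}` -/
theorem z4_aCoef_canon (hRR : IsRRField k F) (S : FrobStr k F) [IsAlgClosed k]
    (hg : 1 ≤ genusFF k F) :
    (S.aCoef (2 * genusFF k F - 2) : ℤ)
      = Nat.card (fixedPow S.sigmaEnd 1) * z4G S.q (genusFF k F - 1)
        + (S.q : ℤ) ^ (genusFF k F - 1) := by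
  classical
  obtain ⟨xW, hxW, hx⟩ := z4_exists_canonical hRR S hg
  rw [z4_aCoef_eq hRR S]
  have h1 : ∀ x ∈ z4J hRR S, z4G S.q (ell (z4D S x (2 * genusFF k F - 2)))
      = z4G S.q (genusFF k F - 1) + if x = xW then (S.q : ℤ) ^ (genusFF k F - 1) else 0 := by
    intro x _
    rw [hx x]
    by_cases h : x = xW
    · rw [if_pos h, if_pos h]
      obtain ⟨j, hj⟩ := Nat.exists_eq_add_of_le hg
      rw [hj, add_comm 1 j, Nat.add_sub_cancel, z4G_succ']
    · rw [if_neg h, if_neg h, add_zero]
  rw [Finset.sum_congr rfl h1, Finset.sum_add_distrib, Finset.sum_const, nsmul_eq_mul,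
    card_z4J, Finset.sum_ite_eq', if_pos ((mem_z4J hRR S xW).mpr hxW)]

end Fermat.Agent.S27
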