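import Mathlib
import Fermat.Agent.S27.Zeta.Rat.Canon

set_option autoImplicit false

/-!
# S27, part D, seat Z4 (RAT), part 4: `(1 - t)(1 - q t) Z(t)` is a polynomial

Pure power-series algebra (`z4_coeff_Y_*`, `z4_sum_coeff_Y`) and the proof of `zeta_rational'`.
-/

noncomputable section

open AlgebraicCurve PowerSeries

namespace Fermat.Agent.S27

open Fermat.Agent.RR

theorem z4_Y_eq (c : ℤ) (Z : ℤ⟦X⟧) :
    (1 - (X : ℤ⟦X⟧)) * (1 - C c * X) * Z
      = Z - C c * (X * Z) - X * Z + C c * (X * (X * Z)) := by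
  ring

theorem z4_coeff_Y_add_two (c : ℤ) (a : ℕ → ℤ) (n : ℕ) :
    PowerSeries.coeff (n+2) ((1 - (X : ℤ⟦X⟧)) * (1 - C c * X) * PowerSeries.mk a)
      = a (n+2) - (c+1) * a (n+1) + c * a n := by
  rw [z4_Y_eq]
  simp only [map_add, map_sub, PowerSeries.coeff_C_mul, PowerSeries.coeff_succ_X_mul,
    PowerSeries.coeff_mk]
  ring

theorem z4_coeff_Y_one (c : ℤ) (a : ℕ → ℤ) :
    PowerSeries.coeff 1 ((1 - (X : ℤ⟦X⟧)) * (1 - C c * X) * PowerSeries.mk a)
      = a 1 - (c+1) * a 0 := by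
  rw [z4_Y_eq]
  have h1 : PowerSeries.coeff 1 (X * PowerSeries.mk a) = a 0 := by
    rw [show (1 : ℕ) = 0 + 1 from rfl, PowerSeries.coeff_succ_X_mul, PowerSeries.coeff_mk]
  have h2 : PowerSeries.coeff 1 (X * (X * PowerSeries.mk a)) = 0 := by
    rw [show (1 : ℕ) = 0 + 1 from rfl, PowerSeries.coeff_succ_X_mul, PowerSeries.coeff_zero_X_mul]
  simp only [map_add, map_sub, PowerSeries.coeff_C_mul, h1, h2, PowerSeries.coeff_mk]
  ring

theorem z4_coeff_Y_zero (c : ℤ) (a : ℕ → ℤ) :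
    PowerSeries.coeff 0 ((1 - (X : ℤ⟦X⟧)) * (1 - C c * X) * PowerSeries.mk a) = a 0 := by
  rw [z4_Y_eq]
  simp only [map_add, map_sub, PowerSeries.coeff_C_mul, PowerSeries.coeff_zero_X_mul,
    PowerSeries.coeff_mk]
  ring

theorem z4_sum_coeff_Y (c : ℤ) (a : ℕ → ℤ) (D : ℕ) :
    ∑ i ∈ Finset.range (D + 2),
        PowerSeries.coeff i ((1 - (X : ℤ⟦X⟧)) * (1 - C c * X) * PowerSeries.mk a)
      = a (D + 1) - c * a D := by
  induction D with
  | zero =>
    rw [Finset.sum_range_succ, Finset.sum_range_one, z4_coeff_Y_zero, z4_coeff_Y_one]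
    ring
  | succ D ih =>
    rw [Finset.sum_range_succ, ih, z4_coeff_Y_add_two]
    ring

/-- the recursion of the geometric sums -/
theorem z4G_rec (q j : ℕ) :
    z4G q (j + 2) - ((q : ℤ) + 1) * z4G q (j + 1) + (q : ℤ) * z4G q j = 0 := by
  rw [z4G_succ q (j + 1), z4G_succ q j]
  ring

variable {k F : Type*} [Field k] [Field F] [Algebra k F]

/-- the coefficients of `(1 - t)(1 - q t) Z` vanish beyond `2g` -/
theorem z4_coeff_eq_zero (hRR : IsRRField k F) (S : FrobStr k F) [IsAlgClosed k] (n : ℕ)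
    (hn : 2 * genusFF k F < n) :
    PowerSeries.coeff n ((1 - (X : ℤ⟦X⟧)) * (1 - C (S.q : ℤ) * X) * S.zeta) = 0 := by
  unfold FrobStr.zeta
  rcases n with _ | _ | m
  · omega
  · have hg : genusFF k F = 0 := by omega
    rw [z4_coeff_Y_one, z4_aCoef_stable hRR S 1 (by omega), z4_aCoef_stable hRR S 0 (by omega),
      hg]
    have h1 : z4G S.q (1 + 1 - 0) = (S.q : ℤ) + 1 := by
      rw [show 1 + 1 - 0 = 0 + 1 + 1 from rfl, z4G_succ, z4G_succ, z4G_zero]
      ring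
    have h2 : z4G S.q (0 + 1 - 0) = 1 := by
      rw [show 0 + 1 - 0 = 0 + 1 from rfl, z4G_succ, z4G_zero]
      ring
    rw [h1, h2]
    ring
  · rw [z4_coeff_Y_add_two, z4_aCoef_stable hRR S (m + 2) (by omega),
      z4_aCoef_stable hRR S (m + 1) (by omega), z4_aCoef_stable hRR S m (by omega)]
    obtain ⟨j, hj⟩ : ∃ j, m + 1 - genusFF k F = j := ⟨_, rfl⟩
    have e1 : m + 2 + 1 - genusFF k F = j + 2 := by omega
    have e2 : m + 1 + 1 - genusFF k F = j + 1 := by omega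
    rw [e1, e2, hj]
    have := z4G_rec S.q j
    linear_combination (Nat.card (fixedPow S.sigmaEnd 1) : ℤ) * this

/-- the coefficient of `t^(2g)` -/
theorem z4_coeff_top (hRR : IsRRField k F) (S : FrobStr k F) [IsAlgClosed k] :
    PowerSeries.coeff (2 * genusFF k F)
        ((1 - (X : ℤ⟦X⟧)) * (1 - C (S.q : ℤ) * X) * S.zeta) = (S.q : ℤ) ^ genusFF k F := by
  unfold FrobStr.zeta
  rcases Nat.eq_zero_or_pos (genusFF k F) with hg | hg
  · rw [hg, mul_zero, z4_coeff_Y_zero, z4_aCoef_zero hRR S, pow_zero, Nat.cast_one]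
  · obtain ⟨j, hj⟩ := Nat.exists_eq_add_of_le hg
    have e0 : 2 * genusFF k F = (2 * genusFF k F - 2) + 2 := by omega
    rw [e0, z4_coeff_Y_add_two, z4_aCoef_stable hRR S (2 * genusFF k F - 2 + 2) (by omega),
      z4_aCoef_stable hRR S (2 * genusFF k F - 2 + 1) (by omega), z4_aCoef_canon hRR S hg]
    have e1 : 2 * genusFF k F - 2 + 2 + 1 - genusFF k F = j + 2 := by omega
    have e2 : 2 * genusFF k F - 2 + 1 + 1 - genusFF k F = j + 1 := by omega
    have e3 : genusFF k F - 1 = j := by omega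
    have e4 : (S.q : ℤ) ^ genusFF k F = (S.q : ℤ) * (S.q : ℤ) ^ j := by
      rw [hj, show Nat.succ 0 + j = j + 1 by omega, pow_succ]
      ring
    rw [e1, e2, e3, e4]
    have := z4G_rec S.q j
    linear_combination (Nat.card (fixedPow S.sigmaEnd 1) : ℤ) * this

/-- the sum of the coefficients up to `2g` -/
theorem z4_sum_coeff (hRR : IsRRField k F) (S : FrobStr k F) [IsAlgClosed k] :
    ∑ i ∈ Finset.range (2 * genusFF k F + 1),
        PowerSeries.coeff i ((1 - (X : ℤ⟦X⟧)) * (1 - C (S.q : ℤ) * X) * S.zeta)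
      = (Nat.card (fixedPow S.sigmaEnd 1) : ℤ) := by
  unfold FrobStr.zeta
  rcases Nat.eq_zero_or_pos (genusFF k F) with hg | hg
  · rw [hg, mul_zero, zero_add, Finset.sum_range_one, z4_coeff_Y_zero]
    have h := z4_aCoef_stable hRR S 0 (by omega)
    rw [hg] at h
    have h2 : z4G S.q (0 + 1 - 0) = 1 := by
      rw [show 0 + 1 - 0 = 0 + 1 from rfl, z4G_succ, z4G_zero]
      ring
    rw [h2, mul_one] at h
    exact h
  · obtain ⟨j, hj⟩ := Nat.exists_eq_add_of_le hg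
    have e0 : 2 * genusFF k F + 1 = (2 * genusFF k F - 1) + 2 := by omega
    rw [e0, z4_sum_coeff_Y, z4_aCoef_stable hRR S (2 * genusFF k F - 1 + 1) (by omega),
      z4_aCoef_stable hRR S (2 * genusFF k F - 1) (by omega)]
    have e1 : 2 * genusFF k F - 1 + 1 + 1 - genusFF k F = j + 1 + 1 := by omega
    have e2 : 2 * genusFF k F - 1 + 1 - genusFF k F = j + 1 := by omega
    rw [e1, e2, z4G_succ S.q (j + 1)]
    ring

/-- **Seat Z4.** `(1 - t)(1 - q t) Z(t) = P(t)`, `deg P = 2g`, `P(0) = 1`, `P(1) = h`,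
leading coefficient `q^g` -/
theorem zeta_rational' (hRR : IsRRField k F) (S : FrobStr k F) [IsAlgClosed k] :
    ∃ P : Polynomial ℤ, P.natDegree = 2 * genusFF k F ∧ P.coeff 0 = 1 ∧
      P.leadingCoeff = (S.q : ℤ) ^ genusFF k F ∧
      P.eval 1 = (Nat.card (fixedPow S.sigmaEnd 1) : ℤ) ∧
      (1 - (X : ℤ⟦X⟧)) * (1 - C (S.q : ℤ) * X) * S.zeta = (P : ℤ⟦X⟧) := by
  set Y : ℤ⟦X⟧ := (1 - (X : ℤ⟦X⟧)) * (1 - C (S.q : ℤ) * X) * S.zeta with hY
  set P : Polynomial ℤ := PowerSeries.trunc (2 * genusFF k F + 1) Y with hP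
  have hcoeff : ∀ n, n < 2 * genusFF k F + 1 → P.coeff n = PowerSeries.coeff n Y := by
    intro n hn
    rw [hP, PowerSeries.coeff_trunc, if_pos hn]
  have hlt : P.natDegree < 2 * genusFF k F + 1 := PowerSeries.natDegree_trunc_lt Y _
  have hq : (S.q : ℤ) ^ genusFF k F ≠ 0 := by
    have := S.one_lt_q
    positivity
  have htop : P.coeff (2 * genusFF k F) = (S.q : ℤ) ^ genusFF k F := by
    rw [hcoeff _ (by omega), hY, z4_coeff_top hRR S]
  have hdeg : P.natDegree = 2 * genusFF k F := by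
    have h1 : 2 * genusFF k F ≤ P.natDegree :=
      Polynomial.le_natDegree_of_ne_zero (by rw [htop]; exact hq)
    omega
  refine ⟨P, hdeg, ?_, ?_, ?_, ?_⟩
  · rw [hcoeff 0 (by omega), hY]
    unfold FrobStr.zeta
    rw [z4_coeff_Y_zero, z4_aCoef_zero hRR S, Nat.cast_one]
  · rw [Polynomial.leadingCoeff, hdeg, htop]
  · rw [Polynomial.eval_eq_sum_range' hlt]
    rw [← z4_sum_coeff hRR S]
    refine Finset.sum_congr rfl fun i hi => ?_
    rw [one_pow, mul_one, hcoeff i (Finset.mem_range.mp hi)]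
  · ext n
    rw [Polynomial.coeff_coe]
    by_cases hn : n < 2 * genusFF k F + 1
    · rw [hcoeff n hn]
    · rw [hP, PowerSeries.coeff_trunc, if_neg hn, hY, z4_coeff_eq_zero hRR S n (by omega)]

end Fermat.Agent.S27
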